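import Fermat.Agent.AlgebraicHeckeFE.Main

/-!
# Algebraic characters that agree at almost all primes

They agree at every prime outside their moduli; the conjugate of an algebraic character is one of
the conjugate type.
-/

set_option autoImplicit false
set_option linter.unusedSectionVars false
set_option linter.style.haveILetI false

noncomputable section

open NumberField NumberField.InfinitePlace IsDedekindDomain Ideal
open FA.ArtinRec (unif)
open FA.Ideles FA.IdeleClass FA.TateLocal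
open FA.AlgHecke (IsAlgChar IsPure typeVal exists_isPure natCast_absNorm_ne_zero)
open scoped nonZeroDivisors Classical ComplexConjugate

namespace FA.FermatHW

universe u

variable {K : Type u} [Field K] [NumberField K]

/-- **Determined by almost all primes.** -/
theorem eq_at_prime {𝔪 𝔪' : Ideal (𝓞 K)} {n : (K →+* ℂ) → ℤ} {f f' : Ideal (𝓞 K) →* ℂ}
    (h : IsAlgChar 𝔪 n f) (h' : IsAlgChar 𝔪' n f')
    (hfin : {v : HeightOneSpectrum (𝓞 K) | f' v.asIdeal ≠ f v.asIdeal}.Finite)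
    {v : HeightOneSpectrum (𝓞 K)} (hv : ¬ v.asIdeal ∣ 𝔪) (hv' : ¬ v.asIdeal ∣ 𝔪') :
    f' v.asIdeal = f v.asIdeal := by
  obtain ⟨w, hw⟩ := exists_isPure h.ne_bot h.unitTrivial
  obtain ⟨χ, hχ, -, hval⟩ := exists_ideleChar_of_isTorusChar (h.torus hw)
  obtain ⟨χ', hχ', -, hval'⟩ := exists_ideleChar_of_isTorusChar (h'.torus hw)
  have he : χ' = χ := mul_inv_eq_one.1 <| eq_one_of_unif (hχ'.mul hχ.inv)
    (T := {v | v.asIdeal ∣ 𝔪} ∪ {v | v.asIdeal ∣ 𝔪'} ∪ {v | f' v.asIdeal ≠ f v.asIdeal})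
    (((Ideal.finite_factors h.ne_bot).union (Ideal.finite_factors h'.ne_bot)).union hfin)
    fun u hu => by
      simp only [Set.mem_union, Set.mem_ofPred_eq, not_or, not_not] at hu
      refine Units.ext ?_
      rw [MonoidHom.mul_apply, MonoidHom.inv_apply, Units.val_mul, Units.val_inv_eq_inv_val,
        (hval u hu.1.1).2, (hval' u hu.1.2).2, normTwist_apply, normTwist_apply, hu.2,
        Units.val_one, mul_inv_cancel₀]
      rw [← normTwist_apply, ← (hval u hu.1.1).2]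
      exact Units.ne_zero _
  have h1 := (hval v hv).2
  rw [← he, (hval' v hv').2, normTwist_apply, normTwist_apply] at h1
  exact mul_right_cancel₀
    (Complex.cpow_ne_zero_iff.2 (Or.inl (natCast_absNorm_ne_zero v.ne_bot))) h1

/-- **The conjugate character.** -/
theorem isAlgChar_conj {𝔪 : Ideal (𝓞 K)} {n n' : (K →+* ℂ) → ℤ} {f : Ideal (𝓞 K) →* ℂ}
    (h : IsAlgChar 𝔪 n f) (hn : ∀ σ, n' σ = n (ComplexEmbedding.conjugate σ)) :
    IsAlgChar 𝔪 n' ((starRingEnd ℂ).toMonoidHom.comp f) := by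
  refine ⟨h.ne_bot, fun I hI => ?_, fun x hx => ?_⟩
  · rw [MonoidHom.comp_apply, ← h.ne_zero_iff I hI]
    exact _root_.map_ne_zero (starRingEnd ℂ)
  · rw [MonoidHom.comp_apply, h.ray x hx]
    show conj (typeVal n (x : K)) = typeVal n' (x : K)
    rw [typeVal, typeVal, map_prod]
    refine Fintype.prod_equiv (Function.Involutive.toPerm _ (ComplexEmbedding.involutive_conjugate K))
      _ _ fun σ => ?_
    rw [Function.Involutive.coe_toPerm, map_zpow₀, hn, ComplexEmbedding.conjugate_coe_eq,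
      show ComplexEmbedding.conjugate (ComplexEmbedding.conjugate σ) = σ from star_star σ]

theorem not_coprime_iff {𝔪 : Ideal (𝓞 K)} {n : (K →+* ℂ) → ℤ} {f : Ideal (𝓞 K) →* ℂ}
    (h : IsAlgChar 𝔪 n f) (v : HeightOneSpectrum (𝓞 K)) :
    f v.asIdeal = 0 ↔ v.asIdeal ∣ 𝔪 := by
  rw [← not_iff_not, ← ne_eq, h.ne_zero_iff _ v.ne_bot, Ideal.dvd_iff_le]
  constructor
  · intro h1 h2
    exact v.isPrime.ne_top (by rwa [sup_eq_left.2 h2] at h1)
  · intro h1
    by_contra h2
    exact h1 (le_sup_right.trans (v.isMaximal.eq_of_le h2 le_sup_left).ge)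

/-- **Minimal moduli: the values at every prime.** -/
theorem eq_at_prime_of_minimal {𝔣 𝔣' : Ideal (𝓞 K)} {n : (K →+* ℂ) → ℤ} {f f' : Ideal (𝓞 K) →* ℂ}
    (h : IsAlgChar 𝔣 n f) (h' : IsAlgChar 𝔣' n f') (hd : 𝔣 ∣ 𝔣') (hd' : 𝔣' ∣ 𝔣)
    (hfin : {v : HeightOneSpectrum (𝓞 K) | f' v.asIdeal ≠ f v.asIdeal}.Finite)
    (v : HeightOneSpectrum (𝓞 K)) : f' v.asIdeal = f v.asIdeal := by
  by_cases hv : v.asIdeal ∣ 𝔣
  · rw [(not_coprime_iff h v).2 hv, (not_coprime_iff h' v).2 (hv.trans hd)]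
  · exact eq_at_prime h h' hfin hv fun e => hv (e.trans hd')

end FA.FermatHW

end
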