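import Fermat.Agent.PowerReciprocity.JacobiHecke
import Fermat.Agent.AlgebraicHecke.LSeries
import Mathlib.NumberTheory.NumberField.Cyclotomic.Embeddings

/-!
# The Jacobi sum characters

With an embedding `φ` of `ℚ(ζ_l)` fixed, `I ↦ φ J_{a,b}(I)` is an algebraic character modulo
`(ζ - 1) ^ 2` of weight `1` with exponents `0` and `1` at conjugate embeddings, its conjugate the
one of `(l - a, l - b)`.
-/

set_option autoImplicit false
set_option linter.unusedSectionVars false

noncomputable section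

open NumberField NumberField.InfinitePlace IsDedekindDomain Ideal UniqueFactorizationMonoid
open FA.PowerReciprocity FA.IwasawaStructure FA.GaussValuation
open FA.AlgHecke (IsAlgChar IsPure IsNormPower typeVal)
open FA.Hecke (IsRayElt)
open scoped nonZeroDivisors Classical ComplexConjugate

namespace FA.FermatHW

variable {K : Type*} [Field K] [NumberField K] {l : ℕ} [hl : Fact l.Prime]
  [IsCyclotomicExtension {l} ℚ K]

local notation "zl" => IsPrimitiveRoot.toInteger (IsCyclotomicExtension.zeta_spec l ℚ K)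

/-- The embeddings are `φ ∘ g⁻¹`. -/
def embEquiv (φ : K →+* ℂ) (l : ℕ) [Fact l.Prime] [IsCyclotomicExtension {l} ℚ K] :
    (K ≃ₐ[ℚ] K) ≃ (K →+* ℂ) :=
  Equiv.ofBijective (fun g => φ.comp (g⁻¹ : K ≃ₐ[ℚ] K).toRingEquiv.toRingHom)
    ((Fintype.bijective_iff_injective_and_card _).2 ⟨fun g g' e => inv_injective (AlgEquiv.ext fun x =>
      φ.injective (RingHom.congr_fun e x)), by
        haveI : IsGalois ℚ K := IsCyclotomicExtension.isGalois {l} ℚ K
        rw [NumberField.Embeddings.card, ← Nat.card_eq_fintype_card, IsGalois.card_aut_eq_finrank]⟩)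

theorem embEquiv_apply (φ : K →+* ℂ) (g : K ≃ₐ[ℚ] K) (x : K) :
    embEquiv φ l g x = φ (g⁻¹ x) := rfl

/-- The exponents of the type. -/
def jacobiType (φ : K →+* ℂ) (l : ℕ) [Fact l.Prime] [IsCyclotomicExtension {l} ℚ K] (a b : ℕ)
    (σ : K →+* ℂ) : ℤ :=
  haveI : NeZero l := ⟨(Fact.out : l.Prime).ne_zero⟩
  (cmExpo l a b (expo l ((embEquiv φ l).symm σ)) : ℤ)

/-- Complex conjugation as an automorphism, at every embedding. -/
theorem exists_conjAut : haveI : NeZero l := ⟨hl.out.ne_zero⟩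
    ∃ c : K ≃ₐ[ℚ] K, c⁻¹ = c ∧ (∀ σ, expo l (σ * c) + expo l σ = l) ∧
      ∀ (φ : K →+* ℂ) (x : K), conj (φ x) = φ (c x) := by
  have : NeZero l := ⟨hl.out.ne_zero⟩
  set G := IsCyclotomicExtension.Rat.galEquivZMod l K
  refine ⟨G.symm (-1), by rw [← map_inv, inv_neg, inv_one], fun σ => ?_, fun φ x => ?_⟩
  · have h0 : ((G σ : (ZMod l)ˣ) : ZMod l) ≠ 0 := Units.ne_zero _
    have hlt : expo l σ < l := ZMod.val_lt _
    show ((G (σ * G.symm (-1)) : (ZMod l)ˣ) : ZMod l).val + expo l σ = l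
    rw [map_mul, G.apply_symm_apply, mul_neg, mul_one, Units.val_neg, ZMod.neg_val, if_neg h0]
    exact Nat.sub_add_cancel hlt.le
  · have hz := IsCyclotomicExtension.zeta_spec l ℚ K
    set z := IsCyclotomicExtension.zeta l ℚ K
    let g₁ : K →ₐ[ℚ] ℂ := ((starRingEnd ℂ).comp φ).toRatAlgHom
    let g₂ : K →ₐ[ℚ] ℂ := (φ.comp (G.symm (-1)).toRingEquiv.toRingHom).toRatAlgHom
    have h : g₁ = g₂ := (hz.powerBasis ℚ).algHom_ext (by
      rw [IsPrimitiveRoot.powerBasis_gen]
      show (starRingEnd ℂ) (φ z) = φ (G.symm (-1) z)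
      rw [IsCyclotomicExtension.Rat.galEquivZMod_apply_of_pow_eq l K _ hz.pow_eq_one, G.apply_symm_apply, map_pow]
      have hφl : φ z ^ l = 1 := by rw [← map_pow, hz.pow_eq_one, map_one]
      rw [← Complex.inv_eq_conj (Complex.norm_eq_one_of_pow_eq_one hφl hl.out.ne_zero)]
      refine inv_eq_of_mul_eq_one_right ?_
      rw [← pow_succ', Units.val_neg, Units.val_one]
      have h1 : (-1 : ZMod l).val + 1 = l := by
        rw [ZMod.neg_val, if_neg one_ne_zero, ZMod.val_one]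
        exact Nat.sub_add_cancel hl.out.one_le
      rw [h1, hφl])
    exact DFunLike.congr_fun h x

theorem jacobiType_conj {φ : K →+* ℂ} {a b : ℕ} (ha : ¬ l ∣ a) (hb : ¬ l ∣ b) (hab : ¬ l ∣ a + b)
    (σ : K →+* ℂ) :
    jacobiType φ l a b σ + jacobiType φ l a b (ComplexEmbedding.conjugate σ) = 1 := by
  have : NeZero l := ⟨hl.out.ne_zero⟩
  obtain ⟨c, hc, hexp, hconj⟩ := exists_conjAut (l := l) (K := K)
  obtain ⟨g, rfl⟩ := (embEquiv φ l).surjective σ
  have e : ComplexEmbedding.conjugate (embEquiv φ l g) = embEquiv φ l (g * c) := RingHom.ext fun x => by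
    rw [ComplexEmbedding.conjugate_coe_eq, embEquiv_apply, embEquiv_apply, hconj, mul_inv_rev, hc,
      AlgEquiv.mul_apply]
  rw [jacobiType, jacobiType, e, Equiv.symm_apply_apply, Equiv.symm_apply_apply]
  exact_mod_cast cmExpo_conj ha hb hab hexp g

theorem cmExpo_neg {a b t : ℕ} (ha : ¬ l ∣ a) (hb : ¬ l ∣ b) (hab : ¬ l ∣ a + b) (hal : a < l)
    (hbl : b < l) (ht : ¬ l ∣ t) : cmExpo l (l - a) (l - b) t + cmExpo l a b t = 1 := by
  have hA := mod_add_mod_of_dvd_add hl.out.pos (x := a * t) (y := (l - a) * t)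
    (fun e => (hl.out.dvd_mul.mp e).elim ha ht)
    (by rw [← add_mul, Nat.add_sub_cancel' hal.le]; exact dvd_mul_right l t)
  have hB := mod_add_mod_of_dvd_add hl.out.pos (x := b * t) (y := (l - b) * t)
    (fun e => (hl.out.dvd_mul.mp e).elim hb ht)
    (by rw [← add_mul, Nat.add_sub_cancel' hbl.le]; exact dvd_mul_right l t)
  have hne := residues_ne hl.out hab ht
  rw [cmExpo, cmExpo]
  split_ifs <;> omega

theorem jacobiType_neg {φ : K →+* ℂ} {a b : ℕ} (ha : ¬ l ∣ a) (hb : ¬ l ∣ b) (hab : ¬ l ∣ a + b)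
    (hal : a < l) (hbl : b < l) (σ : K →+* ℂ) :
    jacobiType φ l (l - a) (l - b) σ = jacobiType φ l a b (ComplexEmbedding.conjugate σ) := by
  have : NeZero l := ⟨hl.out.ne_zero⟩
  have h1 := jacobiType_conj (φ := φ) ha hb hab σ
  have h2 : jacobiType φ l (l - a) (l - b) σ + jacobiType φ l a b σ = 1 := by
    rw [jacobiType, jacobiType]
    exact_mod_cast cmExpo_neg ha hb hab hal hbl (not_dvd_expo _)
  omega

/-! ### Prime to `l` -/

theorem span_lambda_isMaximal : (Ideal.span {zl - 1}).IsMaximal :=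
  ((Ideal.span_singleton_prime prime_lambda.ne_zero).mpr prime_lambda).isMaximal
    (by simpa using (prime_lambda (l := l) (K := K)).ne_zero)

theorem absNorm_span_lambda (hl2 : l ≠ 2) : absNorm (Ideal.span {zl - 1}) = l := by
  rw [absNorm_span_singleton,
    (IsCyclotomicExtension.zeta_spec l ℚ K).norm_toInteger_sub_one_of_prime_ne_two' hl2]
  simp

/-- The primes containing `l`. -/
theorem natCast_mem_iff {P : Ideal (𝓞 K)} (hP : P.IsPrime) (hP0 : P ≠ ⊥) :
    (l : 𝓞 K) ∈ P ↔ P = Ideal.span {zl - 1} := by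
  constructor
  · intro h
    exact (span_lambda_isMaximal.eq_of_le hP.ne_top (by
      rw [Ideal.span_le, Set.singleton_subset_iff]
      exact sub_one_mem hP zetaInt_isPrimitiveRoot h)).symm
  · rintro rfl
    exact Ideal.mem_span_singleton.2 (by
      exact_mod_cast (lambda_dvd_iff (K := K)).2 (dvd_refl (l : ℤ)))

theorem coprime_iff_sup (hl2 : l ≠ 2) {I : Ideal (𝓞 K)} :
    l.Coprime (absNorm I) ↔ I ⊔ Ideal.span {(zl - 1) ^ 2} = ⊤ := by
  constructor
  · intro h
    by_contra hne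
    obtain ⟨M, hM, hle⟩ := Ideal.exists_le_maximal _ hne
    have hmem : zl - 1 ∈ M :=
      hM.isPrime.mem_of_pow_mem 2 (le_sup_right.trans hle (Ideal.mem_span_singleton_self _))
    have hMeq : M = Ideal.span {zl - 1} := (span_lambda_isMaximal.eq_of_le hM.ne_top (by
      rwa [Ideal.span_le, Set.singleton_subset_iff])).symm
    have hd : absNorm M ∣ absNorm I :=
      map_dvd absNorm (Ideal.dvd_iff_le.2 (le_sup_left.trans hle))
    rw [hMeq, absNorm_span_lambda hl2] at hd
    exact hl.out.coprime_iff_not_dvd.1 h hd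
  · intro h
    have h1 : I ⊔ Ideal.span {(l : 𝓞 K)} = ⊤ := by
      by_contra hne
      obtain ⟨M, hM, hle⟩ := Ideal.exists_le_maximal _ hne
      rcases eq_or_ne M ⊥ with rfl | hM0
      · exact RingOfIntegers.not_isField K (Ring.isField_iff_maximal_bot.2 hM)
      have hMeq := (natCast_mem_iff hM.isPrime hM0).1
        (le_sup_right.trans hle (Ideal.mem_span_singleton_self _))
      refine hM.ne_top (top_le_iff.1 (h ▸ sup_le (le_sup_left.trans hle) ?_))
      rw [hMeq, Ideal.span_singleton_le_span_singleton]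
      exact dvd_pow_self _ two_ne_zero
    refine hl.out.coprime_iff_not_dvd.2 fun hd => ?_
    obtain ⟨i, hi, m, hm, e⟩ := Submodule.mem_sup.1 ((Ideal.eq_top_iff_one _).1 h1)
    obtain ⟨r, rfl⟩ := Ideal.mem_span_singleton.1 hm
    by_cases hI : I = ⊥
    · rw [hI, Submodule.mem_bot] at hi
      rw [hi, zero_add] at e
      have hu : IsUnit (l : 𝓞 K) := .of_mul_eq_one r e
      exact (prime_lambda (l := l) (K := K)).not_unit
        (isUnit_of_dvd_unit (by exact_mod_cast (lambda_dvd_iff (K := K)).2 (dvd_refl (l : ℤ))) hu)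
    haveI : Finite (𝓞 K ⧸ I) := Ideal.finiteQuotientOfFreeOfNeBot I hI
    obtain ⟨x, hx⟩ := exists_prime_addOrderOf_dvd_card' (G := 𝓞 K ⧸ I) l (by
      rwa [absNorm_apply, Submodule.cardQuot_apply] at hd)
    have h2 : (l : 𝓞 K ⧸ I) * x = 0 := by
      rw [← nsmul_eq_mul, ← hx]
      exact addOrderOf_nsmul_eq_zero x
    have h3 : (l : 𝓞 K ⧸ I) * Ideal.Quotient.mk I r = 1 := by
      have := congrArg (Ideal.Quotient.mk I) e
      rwa [map_add, Ideal.Quotient.eq_zero_iff_mem.2 hi, zero_add, map_mul, map_natCast, map_one]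
        at this
    have hx0 : x = 0 := by
      rw [← one_mul x, ← h3, mul_right_comm, h2, zero_mul]
    rw [hx0, addOrderOf_zero] at hx
    exact hl.out.ne_one hx.symm

/-! ### The character -/

/-- `I ↦ φ J_{a,b}(I)` on the ideals prime to `l`. -/
def jacobiChar (φ : K →+* ℂ) (l a b : ℕ) [hl : Fact l.Prime] : Ideal (𝓞 K) →* ℂ where
  toFun I := if l.Coprime (absNorm I) then φ (jacobiIdeal l a b I : K) else 0
  map_one' := by
    rw [map_one, if_pos (Nat.coprime_one_right l), Ideal.one_eq_top, jacobiIdeal_top]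
    exact map_one φ
  map_mul' I J := by
    rw [map_mul]
    by_cases h : l.Coprime (absNorm I) ∧ l.Coprime (absNorm J)
    · have hne : ∀ {A : Ideal (𝓞 K)}, l.Coprime (absNorm A) → A ≠ 0 := fun hA e => by
        rw [e, map_zero, Nat.coprime_zero_right] at hA
        exact hl.out.ne_one hA
      rw [if_pos h.1, if_pos h.2, if_pos (Nat.coprime_mul_iff_right.2 h),
        jacobiIdeal_mul (hne h.1) (hne h.2), ← map_mul φ]
      rfl
    · rw [if_neg fun e => h (Nat.coprime_mul_iff_right.1 e)]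
      rcases not_and_or.1 h with h' | h' <;> rw [if_neg h'] <;> simp

theorem jacobiChar_apply (φ : K →+* ℂ) (a b : ℕ) (I : Ideal (𝓞 K)) :
    jacobiChar φ l a b I = if l.Coprime (absNorm I) then φ (jacobiIdeal l a b I : K) else 0 := rfl

variable {φ : K →+* ℂ} {a b : ℕ}

theorem norm_sq_jacobiChar (hl2 : l ≠ 2) (ha : ¬ l ∣ a) (hb : ¬ l ∣ b) (hab : ¬ l ∣ a + b)
    {I : Ideal (𝓞 K)} (hI : l.Coprime (absNorm I)) :
    ‖jacobiChar φ l a b I‖ ^ 2 = ((absNorm I : ℕ) : ℝ) := by
  rw [jacobiChar_apply, if_pos hI]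
  refine (jacobiIdeal_spec hl2 ha hb hab (fun e => ?_) hI).2.1 φ
  rw [e, map_zero, Nat.coprime_zero_right] at hI
  exact hl.out.ne_one hI

/-- **An algebraic character modulo `(ζ - 1) ^ 2`.** -/
theorem isAlgChar_jacobiChar (hl2 : l ≠ 2) (ha : ¬ l ∣ a) (hb : ¬ l ∣ b) (hab : ¬ l ∣ a + b) :
    IsAlgChar (Ideal.span {(zl - 1) ^ 2}) (jacobiType φ l a b) (jacobiChar φ l a b) := by
  have : NeZero l := ⟨hl.out.ne_zero⟩
  refine ⟨?_, fun I hI => ?_, fun x hx => ?_⟩
  · rw [ne_eq, Ideal.span_singleton_eq_bot]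
    exact pow_ne_zero 2 (prime_lambda (l := l) (K := K)).ne_zero
  · rw [← coprime_iff_sup hl2]
    refine ⟨fun h => by_contra fun hc => h (by rw [jacobiChar_apply, if_neg hc]), fun hc h0 => ?_⟩
    have h1 := norm_sq_jacobiChar (φ := φ) hl2 ha hb hab hc
    rw [h0, norm_zero, zero_pow two_ne_zero, eq_comm, Nat.cast_eq_zero, absNorm_eq_zero_iff] at h1
    exact hI h1
  · obtain ⟨hx0, hx1, -⟩ := hx
    have hd : (zl - 1) ^ 2 ∣ x - 1 := Ideal.mem_span_singleton.1 hx1
    have hc : l.Coprime (absNorm (Ideal.span {x})) := (coprime_iff_sup hl2).2 (by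
      rw [FA.Hecke.span_sup_congr hx1, Ideal.span_singleton_one, top_sup_eq])
    rw [jacobiChar_apply, if_pos hc, jacobiIdeal_span_of_congr_one hl2 ha hb hab hd, typeVal,
      ← Fintype.prod_equiv (embEquiv φ l) (fun g => φ (g⁻¹ (x : K)) ^ cmExpo l a b (expo l g))
        (fun σ => σ (x : K) ^ jacobiType φ l a b σ) fun g => by
          rw [jacobiType, Equiv.symm_apply_apply, zpow_natCast, embEquiv_apply],
      show ((cmPow l a b x : 𝓞 K) : K) = algebraMap (𝓞 K) K (cmPow l a b x) from rfl, cmPow,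
      map_prod (algebraMap (𝓞 K) K), map_prod]
    exact Finset.prod_congr rfl fun g _ => by rw [map_pow, map_pow]; rfl

theorem not_isNormPower_jacobiChar (hl2 : l ≠ 2) (ha : ¬ l ∣ a) (hb : ¬ l ∣ b) (hab : ¬ l ∣ a + b) :
    ¬ IsNormPower (jacobiChar φ l a b) := by
  rintro ⟨e, he⟩
  obtain ⟨p, hlp, hp⟩ := Nat.exists_infinite_primes (l + 1)
  have hI : (Ideal.span {(p : 𝓞 K)}) ≠ ⊥ := by
    rw [ne_eq, Ideal.span_singleton_eq_bot]
    exact_mod_cast hp.ne_zero
  have hN : ∃ d, absNorm (Ideal.span {(p : 𝓞 K)}) = p ^ d ∧ 0 < d := by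
    refine ⟨Module.finrank ℤ (𝓞 K), ?_, Module.finrank_pos⟩
    rw [absNorm_span_singleton, show (p : 𝓞 K) = algebraMap ℤ (𝓞 K) p by simp, Algebra.norm_algebraMap]
    simp [Int.natAbs_pow]
  obtain ⟨d, hd, hd0⟩ := hN
  have hcop : l.Coprime (absNorm (Ideal.span {(p : 𝓞 K)})) := by
    rw [hd]
    exact Nat.Coprime.pow_right d ((Nat.coprime_primes hl.out hp).2 (by omega))
  have h1 := norm_sq_jacobiChar (φ := φ) hl2 ha hb hab hcop
  rw [he _ hI ((isAlgChar_jacobiChar hl2 ha hb hab).ne_zero_iff _ hI |>.2 ((coprime_iff_sup hl2).1 hcop)),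
    norm_zpow, Complex.norm_natCast, ← zpow_natCast _ 2, ← zpow_mul, hd] at h1
  have hbig : (1 : ℝ) < ((p ^ d : ℕ) : ℝ) := by exact_mod_cast Nat.one_lt_pow hd0.ne' hp.one_lt
  have h3 := zpow_right_injective₀ (zero_lt_one.trans hbig) hbig.ne' (h1.trans (zpow_one _).symm)
  omega

/-! ### The conjugate -/

theorem conj_pow_symbol (hal : a < l) (ha0 : 0 < a) (P : Ideal (𝓞 K)) (x : 𝓞 K) :
    conj (φ ((symbolPrime l P x ^ a : 𝓞 K) : K)) = φ ((symbolPrime l P x ^ (l - a) : 𝓞 K) : K) := by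
  have hcast : ∀ k : ℕ, φ ((symbolPrime l P x ^ k : 𝓞 K) : K) = φ (symbolPrime l P x : K) ^ k :=
    fun k => by rw [← map_pow]; rfl
  rw [hcast, hcast, map_pow]
  set z := φ (symbolPrime l P x : K) with hz
  have h01 : z = 0 ∨ z ^ l = 1 := by
    by_cases h : ∃ c : 𝓞 K, c ^ l = 1 ∧ x ^ ((Ideal.absNorm P - 1) / l) - c ∈ P
    · right
      rw [hz, ← hcast, show symbolPrime l P x = h.choose from dif_pos h, h.choose_spec.1]
      exact map_one φ
    · left
      rw [hz, show symbolPrime l P x = 0 from dif_neg h]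
      exact map_zero φ
  rcases h01 with h0 | h1
  · rw [h0, map_zero, zero_pow ha0.ne', zero_pow (by omega)]
  · rw [← Complex.inv_eq_conj (Complex.norm_eq_one_of_pow_eq_one h1 hl.out.ne_zero), inv_pow]
    refine inv_eq_of_mul_eq_one_right ?_
    rw [← pow_add, Nat.add_sub_cancel' hal.le, h1]

theorem conj_jacobiPrime (ha0 : 0 < a) (hal : a < l) (hb0 : 0 < b) (hbl : b < l)
    {P : Ideal (𝓞 K)} (hP : P ≠ ⊥) :
    conj (φ (jacobiPrime l a b P : K)) = φ (jacobiPrime l (l - a) (l - b) P : K) := by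
  haveI : Finite (𝓞 K ⧸ P) := Ideal.finiteQuotientOfFreeOfNeBot P hP
  let := Fintype.ofFinite (𝓞 K ⧸ P)
  simp only [jacobiPrime, finsum_eq_sum_of_fintype]
  show conj (φ (algebraMap (𝓞 K) K _)) = φ (algebraMap (𝓞 K) K _)
  simp only [map_neg, map_sum, map_mul]
  refine congrArg Neg.neg (Finset.sum_congr rfl fun y _ => ?_)
  exact congrArg₂ (· * ·) (conj_pow_symbol hal ha0 P _) (conj_pow_symbol hbl hb0 P _)

theorem conj_jacobiChar (ha0 : 0 < a) (hal : a < l) (hb0 : 0 < b) (hbl : b < l) (I : Ideal (𝓞 K)) :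
    conj (jacobiChar φ l a b I) = jacobiChar φ l (l - a) (l - b) I := by
  rw [jacobiChar_apply, jacobiChar_apply]
  split_ifs with h
  swap
  · exact map_zero _
  show conj (φ (algebraMap (𝓞 K) K _)) = φ (algebraMap (𝓞 K) K _)
  simp only [jacobiIdeal, map_multiset_prod, Multiset.map_map]
  refine congrArg Multiset.prod (Multiset.map_congr rfl fun P hP => ?_)
  exact conj_jacobiPrime ha0 hal hb0 hbl (prime_of_normalized_factor P hP).ne_zero

end FA.FermatHW

end
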