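import Fermat.Agent.DavenportHasse.Residue
import Fermat.Agent.PowerReciprocity.JacobiHecke
import Mathlib.LinearAlgebra.Projectivization.Basic

/-!
# The points of a Fermat curve in the projective plane

The affine points with `z = 1` and the roots of `t ^ n = - 1` are the points of
`x ^ n + y ^ n = z ^ n` in the projective plane.
-/

set_option autoImplicit false
set_option linter.unusedSectionVars false

noncomputable section

open scoped LinearAlgebra.Projectivization Classical
open FA.DavenportHasse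

namespace FA.FermatHW

universe u

variable {E : Type u} [Field E] {n : ℕ}

/-- The points of `x ^ n + y ^ n = z ^ n` in `ℙ² (E)`. -/
def FermatCurvePoint (E : Type u) [Field E] (n : ℕ) : Type u :=
  {P : ℙ E (Fin 3 → E) // P.rep 0 ^ n + P.rep 1 ^ n = P.rep 2 ^ n}

theorem rep_mk_cond (v : Fin 3 → E) (hv : v ≠ 0) (h : v 0 ^ n + v 1 ^ n = v 2 ^ n) :
    (Projectivization.mk E v hv).rep 0 ^ n + (Projectivization.mk E v hv).rep 1 ^ n =
      (Projectivization.mk E v hv).rep 2 ^ n := by
  obtain ⟨c, hc⟩ := Projectivization.exists_smul_eq_mk_rep E v hv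
  rw [← hc]
  simp only [Pi.smul_apply, Units.smul_def, smul_eq_mul, mul_pow, ← mul_add, h]

/-- **The count.** -/
theorem card_fermatCurvePoint [Finite E] (hn : n ≠ 0) :
    Nat.card (FermatCurvePoint E n) = fermatPoints E n := by
  rw [fermatPoints, ← Nat.card_sum]
  have h1 : ∀ p : E × E, (![p.1, p.2, 1] : Fin 3 → E) ≠ 0 := fun p e => by
    simpa using congrFun e 2
  have h2 : ∀ t : E, (![t, 1, 0] : Fin 3 → E) ≠ 0 := fun t e => by simpa using congrFun e 1
  let g : {p : E × E // p.1 ^ n + p.2 ^ n = 1} ⊕ {t : E // t ^ n = -1} → FermatCurvePoint E n :=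
    Sum.elim
      (fun p => ⟨Projectivization.mk E _ (h1 p.1), rep_mk_cond _ _ (by simp [p.2])⟩)
      (fun t => ⟨Projectivization.mk E _ (h2 t.1), rep_mk_cond _ _ (by simp [t.2, zero_pow hn])⟩)
  refine (Nat.card_congr (Equiv.ofBijective g ⟨?_, ?_⟩)).symm
  · rintro (⟨p, hp⟩ | ⟨t, ht⟩) (⟨p', hp'⟩ | ⟨t', ht'⟩) e <;>
      obtain ⟨c, hc⟩ := (Projectivization.mk_eq_mk_iff' E _ _ _ _).1 (congrArg Subtype.val e)
    · obtain rfl : c = 1 := by simpa using congrFun hc 2
      rw [one_smul] at hc
      have e0 : p'.1 = p.1 := by simpa using congrFun hc 0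
      have e1 : p'.2 = p.2 := by simpa using congrFun hc 1
      exact congrArg Sum.inl (Subtype.ext (Prod.ext e0.symm e1.symm))
    · simpa using congrFun hc 2
    · obtain rfl : c = 0 := by simpa using congrFun hc 2
      exact absurd (by simpa using congrFun hc 1) (zero_ne_one (α := E))
    · obtain rfl : c = 1 := by simpa using congrFun hc 1
      rw [one_smul] at hc
      exact congrArg Sum.inr (Subtype.ext (by simpa using (congrFun hc 0).symm))
  · rintro ⟨P, hP⟩
    set v := P.rep with hv
    by_cases h : v 2 = 0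
    · have hv1 : v 1 ≠ 0 := fun h1' => by
        rw [h1', h, zero_pow hn, add_zero, eq_comm] at hP
        refine P.rep_nonzero (funext fun i => ?_)
        fin_cases i
        exacts [eq_zero_of_pow_eq_zero hP.symm, h1', h]
      refine ⟨Sum.inr ⟨v 0 / v 1, ?_⟩, Subtype.ext ?_⟩
      · rw [h, zero_pow hn] at hP
        rw [div_pow, div_eq_iff (pow_ne_zero _ hv1), neg_one_mul]
        exact eq_neg_of_add_eq_zero_left hP
      · show Projectivization.mk E _ _ = P
        conv_rhs => rw [← P.mk_rep]
        refine (Projectivization.mk_eq_mk_iff' E _ _ _ _).2 ⟨(v 1)⁻¹, funext fun i => ?_⟩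
        fin_cases i <;> simp [← hv, h, hv1, div_eq_inv_mul]
    · refine ⟨Sum.inl ⟨(v 0 / v 2, v 1 / v 2), ?_⟩, Subtype.ext ?_⟩
      · show (v 0 / v 2) ^ n + (v 1 / v 2) ^ n = 1
        rw [div_pow, div_pow, ← add_div, hP, div_self (pow_ne_zero _ h)]
      · show Projectivization.mk E _ _ = P
        conv_rhs => rw [← P.mk_rep]
        refine (Projectivization.mk_eq_mk_iff' E _ _ _ _).2 ⟨(v 2)⁻¹, funext fun i => ?_⟩
        fin_cases i <;> simp [← hv, h, div_eq_inv_mul]

end FA.FermatHW

end
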