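import Fermat.Agent.AlgebraicHeckeFE.Main
import Fermat.Agent.AlgebraicHeckeFE.Euler
import Fermat.Agent.FermatHasseWeil.Agree
import Fermat.Agent.FermatHasseWeil.Character
import Fermat.Agent.FermatHasseWeil.Points

/-!
# The L-function of a Fermat curve over its cyclotomic field

The product of the completed L-series of the primitive Jacobi sum characters: it is entire, real on
the real axis and symmetric about `s = 1`, and outside the prime over `l` its Euler factors are those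
of the reductions of the curve.
-/

set_option autoImplicit false
set_option linter.unusedSectionVars false
set_option linter.style.haveILetI false

noncomputable section

open NumberField NumberField.InfinitePlace IsDedekindDomain Ideal
open FA.AlgHecke (IsAlgChar IsPure IsNormPower)
open FA.PowerReciprocity
open scoped nonZeroDivisors Classical ComplexConjugate

set_option maxHeartbeats 800000

namespace FA.FermatHW

universe u

variable {K : Type u} [Field K] [NumberField K] {l : ℕ} [hl : Fact l.Prime]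
  [IsCyclotomicExtension {l} ℚ K]

local notation "zl" => IsPrimitiveRoot.toInteger (IsCyclotomicExtension.zeta_spec l ℚ K)

/-- The pairs `(a, b)` with `a`, `b`, `a + b` prime to `l`, below `l`. -/
def pairs (l : ℕ) : Finset ((_ : ℕ) × ℕ) :=
  (Finset.Icc 1 (l - 1)).sigma fun a => (Finset.Icc 1 (l - 1)).erase (l - a)

theorem mem_pairs {l : ℕ} {x : (_ : ℕ) × ℕ} :
    x ∈ pairs l ↔ (1 ≤ x.1 ∧ x.1 ≤ l - 1) ∧ x.2 ≠ l - x.1 ∧ 1 ≤ x.2 ∧ x.2 ≤ l - 1 := by
  simp only [pairs, Finset.mem_sigma, Finset.mem_erase, Finset.mem_Icc]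

theorem card_pairs (l : ℕ) : (pairs l).card = (l - 1) * (l - 2) := by
  rw [pairs, Finset.card_sigma, Finset.sum_congr rfl fun a ha => show _ = l - 2 by
    rw [Finset.card_erase_of_mem, Nat.card_Icc]
    · omega
    · rw [Finset.mem_Icc] at ha ⊢
      omega, Finset.sum_const, Nat.card_Icc, smul_eq_mul, Nat.add_sub_cancel]

theorem not_dvd_of_pairs {l : ℕ} {x : (_ : ℕ) × ℕ} (hx : x ∈ pairs l) :
    ¬ l ∣ x.1 ∧ ¬ l ∣ x.2 ∧ ¬ l ∣ x.1 + x.2 := by
  rw [mem_pairs] at hx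
  refine ⟨fun e => ?_, fun e => ?_, fun e => ?_⟩
  · have := Nat.le_of_dvd (by omega) e
    omega
  · have := Nat.le_of_dvd (by omega) e
    omega
  · obtain ⟨c, hc⟩ := e
    rcases c with _ | _ | c
    · omega
    · omega
    · have : l * 2 ≤ l * (c + 1 + 1) := Nat.mul_le_mul_left _ (by omega)
      omega

/-- `(a, b) ↦ (l - a, l - b)`. -/
def negPair (l : ℕ) (x : pairs l) : pairs l :=
  ⟨⟨l - x.1.1, l - x.1.2⟩, by
    have h := mem_pairs.1 x.2
    rw [mem_pairs]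
    dsimp only
    omega⟩

theorem negPair_involutive (l : ℕ) : Function.Involutive (negPair l) := fun ⟨⟨a, b⟩, h⟩ => by
  have := mem_pairs.1 h
  simp only [negPair, Subtype.mk.injEq, Sigma.mk.injEq, heq_eq_eq]
  dsimp only at this
  omega

variable (K l) in
/-- The prime over `l`. -/
def lambdaPrime : HeightOneSpectrum (𝓞 K) :=
  ⟨Ideal.span {zl - 1}, span_lambda_isMaximal.isPrime,
    by rw [ne_eq, Ideal.span_singleton_eq_bot]; exact (prime_lambda (l := l) (K := K)).ne_zero⟩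

theorem eq_lambdaPrime_iff (v : HeightOneSpectrum (𝓞 K)) :
    v = lambdaPrime K l ↔ (l : 𝓞 K) ∈ v.asIdeal := by
  rw [natCast_mem_iff v.isPrime v.ne_bot]
  exact ⟨fun e => e ▸ rfl, fun e => HeightOneSpectrum.ext e⟩

theorem absNorm_lambdaPrime (hl2 : l ≠ 2) : absNorm (lambdaPrime K l).asIdeal = l :=
  absNorm_span_lambda hl2

theorem coprime_of_notMem {v : HeightOneSpectrum (𝓞 K)} (hl2 : l ≠ 2)
    (hv : (l : 𝓞 K) ∉ v.asIdeal) : l.Coprime (absNorm v.asIdeal) := by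
  rw [coprime_iff_sup (K := K) hl2]
  by_contra hne
  refine hv ((natCast_mem_iff v.isPrime v.ne_bot).2 ?_)
  have h1 : Ideal.span {(zl - 1) ^ 2} ≤ v.asIdeal :=
    le_sup_right.trans (v.isMaximal.eq_of_le hne le_sup_left).ge
  exact (span_lambda_isMaximal.eq_of_le v.isPrime.ne_top (by
    rw [Ideal.span_le, Set.singleton_subset_iff]
    exact v.isPrime.mem_of_pow_mem 2 (h1 (Ideal.mem_span_singleton_self _)))).symm

/-- The completed L-series on the half plane. -/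
def localData (φ : K →+* ℂ) (l : ℕ) [Fact l.Prime] [IsCyclotomicExtension {l} ℚ K] (a b : ℕ)
    (j : ℕ) (f₀ : Ideal (𝓞 K) →* ℂ) (W : ℂ) (Λ : ℂ → ℂ) : Prop :=
  ∃ 𝔣 : Ideal (𝓞 K), IsAlgChar 𝔣 (jacobiType φ l a b) f₀ ∧
    (∀ I : Ideal (𝓞 K), I ≠ ⊥ → jacobiChar φ l a b I ≠ 0 → f₀ I = jacobiChar φ l a b I) ∧
    (∀ (𝔪' : Ideal (𝓞 K)) (f' : Ideal (𝓞 K) →* ℂ), IsAlgChar 𝔪' (jacobiType φ l a b) f' →
      {v : HeightOneSpectrum (𝓞 K) | f' v.asIdeal ≠ f₀ v.asIdeal}.Finite → 𝔣 ∣ 𝔪') ∧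
    j ≤ 2 ∧ absNorm 𝔣 = l ^ j ∧ ‖W‖ = 1 ∧ Differentiable ℂ Λ ∧
    (∀ s : ℂ, 3 / 2 < s.re → ∃ L : ℂ, L ≠ 0 ∧
      HasProd (fun v : HeightOneSpectrum (𝓞 K) =>
        (1 - f₀ v.asIdeal * ((absNorm v.asIdeal : ℕ) : ℂ) ^ (-s))⁻¹) L ∧
      Λ s = ((|((discr K : ℤ) : ℝ)| * (l : ℝ) ^ j : ℝ) : ℂ) ^ (s / 2) *
        Complex.Gammaℂ s ^ ((l - 1) / 2) * L) ∧
    ∀ s : ℂ, Λ s = W * conj (Λ (2 - conj s))

theorem exists_localData (φ : K →+* ℂ) (hl2 : l ≠ 2) {a b : ℕ} (ha : ¬ l ∣ a) (hb : ¬ l ∣ b)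
    (hab : ¬ l ∣ a + b) : ∃ j f₀ W Λ, localData φ l a b j f₀ W Λ := by
  haveI : NeZero l := ⟨hl.out.ne_zero⟩
  have hl3 : 2 < l := lt_of_le_of_ne hl.out.two_le (Ne.symm hl2)
  haveI : IsTotallyComplex K := IsCyclotomicExtension.Rat.isTotallyComplex K hl3
  have hf := isAlgChar_jacobiChar (φ := φ) hl2 ha hb hab
  have hfn := not_isNormPower_jacobiChar (φ := φ) hl2 ha hb hab
  obtain ⟨w, 𝔣, f₀, e, W, Λ, hw, hdvd, h₀, hag, hmin, -, hW, hΛ, hL, hfe⟩ :=
    FA.AlgHeckeFE.exists_functional_equation hf hfn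
  obtain rfl : w = 1 := by rw [← hw φ, jacobiType_conj ha hb hab]
  have hne₀ : ¬ IsNormPower f₀ := fun ⟨c, hc⟩ => hfn ⟨c, fun I hI h0 => by
    rw [← hag I hI h0]
    exact hc I hI (by rw [hag I hI h0]; exact h0)⟩
  obtain ⟨E, -, hE, hE0⟩ := h₀.exists_entire hw hne₀
  obtain ⟨j, hj, hj'⟩ : ∃ j ≤ 2, absNorm 𝔣 = l ^ j := by
    refine (Nat.dvd_prime_pow hl.out).1 ?_
    rw [← absNorm_span_lambda (K := K) hl2, ← map_pow, Ideal.span_singleton_pow]
    exact map_dvd absNorm hdvd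
  refine ⟨j, f₀, W, Λ, 𝔣, h₀, hag, hmin, hj, hj', hW, hΛ, fun s hs => ?_, fun s => ?_⟩
  · have hs' : 1 + ((1 : ℤ) : ℝ) / 2 < s.re := by push_cast; linarith
    obtain ⟨L, hL1, hL2⟩ := hL s hs'
    obtain ⟨L', hL'1, hL'2, -⟩ := FA.AlgHeckeFE.hasProd_algChar h₀ hw hs'
    obtain rfl := hL'1.unique hL1
    refine ⟨L', by rw [hL1.unique (hE s hs')]; exact hE0 s hs'.le, hL'2, ?_⟩
    have hg : FA.AlgHeckeFE.gammaFactor (jacobiType φ l a b) e 1 s =
        Complex.Gammaℂ s ^ ((l - 1) / 2) := by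
      have hmin0 : ∀ σ : K →+* ℂ, min (jacobiType φ l a b σ)
          (jacobiType φ l a b (ComplexEmbedding.conjugate σ)) = 0 := fun σ => by
        have h1 := jacobiType_conj (φ := φ) ha hb hab σ
        have h2 : ∀ τ, 0 ≤ jacobiType φ l a b τ := fun τ => by
          rw [jacobiType]; exact Int.natCast_nonneg _
        have := h2 σ
        have := h2 (ComplexEmbedding.conjugate σ)
        omega
      haveI : IsEmpty {v : InfinitePlace K // IsReal v} :=
        ⟨fun v => not_isReal_iff_isComplex.2 (IsTotallyComplex.isComplex v.1) v.2⟩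
      rw [FA.AlgHeckeFE.gammaFactor, Fintype.prod_empty, one_mul]
      simp only [hmin0, Int.cast_zero, sub_zero]
      rw [Finset.prod_const, Finset.card_univ,
        show Fintype.card {v : InfinitePlace K // IsComplex v} = nrComplexPlaces K from rfl,
        IsCyclotomicExtension.Rat.nrComplexPlaces_eq_totient_div_two (n := l) K,
        Nat.totient_prime hl.out]
    rw [hL2, hg, hj', Nat.cast_pow]
  · rw [hfe s]
    norm_num

theorem eq_of_eq_halfPlane' {f g : ℂ → ℂ} (hf : Differentiable ℂ f) (hg : Differentiable ℂ g)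
    (h : ∀ s : ℂ, 3 / 2 < s.re → f s = g s) : f = g := by
  refine (Complex.analyticOnNhd_univ_iff_differentiable.mpr hf).eq_of_eventuallyEq
    (Complex.analyticOnNhd_univ_iff_differentiable.mpr hg) (z₀ := 2) ?_
  filter_upwards [(isOpen_lt continuous_const Complex.continuous_re).mem_nhds
    (show (3 / 2 : ℝ) < (2 : ℂ).re by norm_num)] with s hs
  exact h s hs

theorem prod_cpow_ofReal {ι : Type*} (T : Finset ι) {A : ι → ℝ} (hA : ∀ i, 0 ≤ A i) (z : ℂ) :
    ∏ i ∈ T, (A i : ℂ) ^ z = ((∏ i ∈ T, A i : ℝ) : ℂ) ^ z := by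
  induction T using Finset.induction_on with
  | empty => simp
  | insert i T hi ih =>
    rw [Finset.prod_insert hi, Finset.prod_insert hi, ih, Complex.ofReal_mul,
      Complex.mul_cpow_ofReal_nonneg (hA i) (Finset.prod_nonneg fun i _ => hA i)]

/-- **The continuation and the functional equation.** -/
theorem exists_hasseWeil (hl2 : l ≠ 2) :
    ∃ (α : HeightOneSpectrum (𝓞 K) → Fin ((l - 1) * (l - 2)) → ℂ)
      (c : Fin ((l - 1) * (l - 2)) → ℂ) (N : ℕ) (W : ℂ) (Λ : ℂ → ℂ),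
      (∀ v : HeightOneSpectrum (𝓞 K), (l : 𝓞 K) ∉ v.asIdeal →
        (∀ i, ‖α v i‖ ^ 2 = ((absNorm v.asIdeal : ℕ) : ℝ)) ∧
        ∀ (E : Type u) [Field E] [Finite E] [Algebra (𝓞 K ⧸ v.asIdeal) E],
          (Nat.card (FermatCurvePoint E l) : ℂ) =
            ((absNorm v.asIdeal : ℕ) : ℂ) ^ Module.finrank (𝓞 K ⧸ v.asIdeal) E + 1 -
              ∑ i, α v i ^ Module.finrank (𝓞 K ⧸ v.asIdeal) E) ∧
      (∀ i, c i = 0 ∨ ‖c i‖ ^ 2 = (l : ℝ)) ∧ N ≤ 2 * ((l - 1) * (l - 2)) ∧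
      (W = 1 ∨ W = -1) ∧ Differentiable ℂ Λ ∧
      (∀ s : ℂ, 3 / 2 < s.re → ∃ L : ℂ, L ≠ 0 ∧
        HasProd (fun v : {v : HeightOneSpectrum (𝓞 K) // (l : 𝓞 K) ∉ v.asIdeal} =>
          (∏ i, (1 - α v.1 i * ((absNorm v.1.asIdeal : ℕ) : ℂ) ^ (-s)))⁻¹) L ∧
        (∏ i, (1 - c i * (l : ℂ) ^ (-s))) ≠ 0 ∧
        Λ s = ((|((discr K : ℤ) : ℝ)| ^ ((l - 1) * (l - 2)) * (l : ℝ) ^ N : ℝ) : ℂ) ^ (s / 2) *
          Complex.Gammaℂ s ^ ((l - 1) * ((l - 1) * (l - 2) / 2)) *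
          ((∏ i, (1 - c i * (l : ℂ) ^ (-s)))⁻¹ * L)) ∧
      ∀ s : ℂ, Λ s = W * Λ (2 - s) := by
  obtain ⟨φ⟩ : Nonempty (K →+* ℂ) := inferInstance
  have hx : ∀ x : pairs l, ∃ j f₀ W Λ, localData φ l x.1.1 x.1.2 j f₀ W Λ := fun x =>
    exists_localData φ hl2 (not_dvd_of_pairs x.2).1 (not_dvd_of_pairs x.2).2.1
      (not_dvd_of_pairs x.2).2.2
  choose j f₀ W Λ hD using hx
  choose 𝔣 h₀ hag hmin hj hN hW hΛ hL hfe using hD
  have hval : ∀ x (v : HeightOneSpectrum (𝓞 K)), (l : 𝓞 K) ∉ v.asIdeal →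
      f₀ x v.asIdeal = φ (jacobiPrime l x.1.1 x.1.2 v.asIdeal : K) := fun x v hv => by
    have hc := coprime_of_notMem hl2 hv
    have h0 : jacobiChar φ l x.1.1 x.1.2 v.asIdeal ≠ 0 := fun e => by
      have h1 := norm_sq_jacobiChar (φ := φ) hl2 (not_dvd_of_pairs x.2).1 (not_dvd_of_pairs x.2).2.1
        (not_dvd_of_pairs x.2).2.2 hc
      rw [e, norm_zero, zero_pow two_ne_zero, eq_comm, Nat.cast_eq_zero, absNorm_eq_zero_iff] at h1
      exact v.ne_bot h1
    rw [hag x _ v.ne_bot h0, jacobiChar_apply, if_pos hc, jacobiIdeal_prime v.prime]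
  have hsym : ∀ x (v : HeightOneSpectrum (𝓞 K)),
      f₀ (negPair l x) v.asIdeal = conj (f₀ x v.asIdeal) := by
    intro x v
    have key : ∀ y, IsAlgChar (𝔣 y) (jacobiType φ l (negPair l y).1.1 (negPair l y).1.2)
        ((starRingEnd ℂ).toMonoidHom.comp (f₀ y)) ∧
        {v : HeightOneSpectrum (𝓞 K) |
          ((starRingEnd ℂ).toMonoidHom.comp (f₀ y)) v.asIdeal ≠ f₀ (negPair l y) v.asIdeal}.Finite :=
      fun y => by
      have hy := mem_pairs.1 y.2
      obtain ⟨h1, h2, h3⟩ := not_dvd_of_pairs y.2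
      refine ⟨isAlgChar_conj (h₀ y) fun σ =>
          jacobiType_neg h1 h2 h3 (show y.1.1 < l by omega) (show y.1.2 < l by omega) σ,
        (Set.finite_singleton (lambdaPrime K l)).subset fun u hu => by_contra fun hu' => hu ?_⟩
      have hnl : (l : 𝓞 K) ∉ u.asIdeal := fun e => hu' ((eq_lambdaPrime_iff u).2 e)
      show conj (f₀ y u.asIdeal) = f₀ (negPair l y) u.asIdeal
      rw [hval _ u hnl, hval _ u hnl]
      exact conj_jacobiPrime (by omega) (by omega) (by omega) (by omega) u.ne_bot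
    have d1 : 𝔣 (negPair l x) ∣ 𝔣 x := hmin _ _ _ (key x).1 (key x).2
    have d2 : 𝔣 x ∣ 𝔣 (negPair l x) := by
      have := key (negPair l x)
      rw [negPair_involutive l x] at this
      exact hmin _ _ _ this.1 this.2
    exact (eq_at_prime_of_minimal (h₀ (negPair l x)) (key x).1 d1 d2 (key x).2 v).symm
  -- all the Euler factors at once
  set P : ℂ → HeightOneSpectrum (𝓞 K) → ℂ := fun s v =>
    (∏ x : pairs l, (1 - f₀ x v.asIdeal * ((absNorm v.asIdeal : ℕ) : ℂ) ^ (-s)))⁻¹ with hP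
  set A : ℝ := |((discr K : ℤ) : ℝ)| ^ ((l - 1) * (l - 2)) * (l : ℝ) ^ (∑ x, j x)
  have hA : 0 < A := mul_pos (pow_pos (abs_pos.2 (Int.cast_ne_zero.2 (discr_ne_zero K))) _)
    (pow_pos (Nat.cast_pos.2 hl.out.pos) _)
  set G : ℂ → ℂ := fun s => ∏ x : pairs l, Λ x s with hG
  have hGd : Differentiable ℂ G := Differentiable.fun_finsetProd fun x _ => hΛ x
  have hM : Fintype.card (pairs l) = (l - 1) * (l - 2) := by rw [Fintype.card_coe, card_pairs]
  have hmain : ∀ s : ℂ, 3 / 2 < s.re → ∃ L : ℂ, L ≠ 0 ∧ HasProd (P s) L ∧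
      G s = (A : ℂ) ^ (s / 2) * Complex.Gammaℂ s ^ ((l - 1) * ((l - 1) * (l - 2) / 2)) * L :=
    fun s hs => by
    choose L hL0 hLp hLeq using fun x => hL x s hs
    refine ⟨∏ x, L x, Finset.prod_ne_zero_iff.2 fun x _ => hL0 x, ?_, ?_⟩
    · simp only [hP, ← Finset.prod_inv_distrib]
      exact hasProd_prod fun x _ => hLp x
    · simp only [hG, hLeq, Finset.prod_mul_distrib, Finset.prod_const, Finset.card_univ, hM,
        ← pow_mul]
      congr 2
      · rw [prod_cpow_ofReal _ fun x => by positivity, Finset.prod_mul_distrib, Finset.prod_const,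
          Finset.card_univ, hM, Finset.prod_pow_eq_pow_sum]
      · obtain ⟨k, hk⟩ := hl.out.odd_of_ne_two hl2
        subst hk
        rw [show 2 * k + 1 - 1 = 2 * k by omega, show 2 * k + 1 - 2 = 2 * k - 1 by omega,
          Nat.mul_div_cancel_left k two_pos, mul_assoc 2 k, Nat.mul_div_cancel_left _ two_pos]
        ring
  have hreal : (fun s => conj (G (conj s))) = G := by
    refine eq_of_eq_halfPlane' (fun s => by
      have h1 := (hGd (conj s)).conj_conj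
      rwa [Complex.conj_conj] at h1) hGd fun s hs => ?_
    have hs' : 3 / 2 < (conj s).re := by rwa [Complex.conj_re]
    obtain ⟨L, -, hLp, hLe⟩ := hmain _ hs'
    obtain ⟨L', -, hLp', hLe'⟩ := hmain s hs
    have hc := hLp.map (starRingEnd ℂ) Complex.continuous_conj
    have e : (⇑(starRingEnd ℂ) ∘ P (conj s)) = P s := funext fun v => by
      simp only [hP, Function.comp_apply, map_inv₀, map_prod, map_sub, map_one, map_mul, ← hsym,
        FA.AlgHeckeFE.conj_natCast_cpow, map_neg, Complex.conj_conj]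
      exact congrArg Inv.inv (Fintype.prod_equiv (negPair_involutive l).toPerm _ _ fun x => rfl)
    rw [e] at hc
    show conj (G (conj s)) = G s
    rw [hLe, hLe', map_mul, map_mul, map_pow, FA.AlgHeckeFE.conj_ofReal_cpow hA,
      FA.AlgHeckeFE.conj_Gammaℂ, map_div₀, map_ofNat, Complex.conj_conj, hc.unique hLp']
  have hfe' : ∀ s, G s = (∏ x, W x) * G (2 - s) := fun s => by
    have h1 : G (2 - s) = conj (G (2 - conj s)) := by
      conv_lhs => rw [← hreal]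
      simp only [map_sub, map_ofNat]
    rw [h1, hG, map_prod, ← Finset.prod_mul_distrib]
    exact Finset.prod_congr rfl fun x _ => hfe x s
  obtain ⟨L₂, hL₂0, -, hL₂⟩ := hmain 2 (by norm_num)
  have hG2 : G 2 ≠ 0 := by
    rw [hL₂]
    refine mul_ne_zero (mul_ne_zero (Complex.cpow_ne_zero_iff.2 (Or.inl
      (Complex.ofReal_ne_zero.2 hA.ne'))) (pow_ne_zero _ ?_)) hL₂0
    rw [Complex.Gammaℂ_def]
    exact mul_ne_zero (mul_ne_zero two_ne_zero (by simp [Real.pi_ne_zero]))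
      (Complex.Gamma_ne_zero_of_re_pos (by norm_num))
  have hWsq : (∏ x, W x) = 1 ∨ (∏ x, W x) = -1 := by
    refine mul_self_eq_one_iff.1 (mul_right_cancel₀ hG2 ?_)
    have e1 := hfe' 2
    rw [sub_self] at e1
    have e2 := hfe' 0
    rw [sub_zero] at e2
    rw [mul_assoc, ← e2, ← e1, one_mul]
  obtain ⟨e⟩ : Nonempty (Fin ((l - 1) * (l - 2)) ≃ pairs l) :=
    ⟨(Fintype.equivFinOfCardEq hM).symm⟩
  set v₀ := lambdaPrime K l
  refine ⟨fun v i => f₀ (e i) v.asIdeal, fun i => f₀ (e i) v₀.asIdeal, ∑ x, j x, _, G,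
    fun v hv => ⟨fun i => ?_, fun E _ _ _ => ?_⟩, fun i => ?_, ?_, hWsq, hGd, fun s hs => ?_, hfe'⟩
  · beta_reduce
    rw [hval _ v hv]
    have h1 := norm_sq_jacobiChar (φ := φ) hl2 (not_dvd_of_pairs (e i).2).1
      (not_dvd_of_pairs (e i).2).2.1 (not_dvd_of_pairs (e i).2).2.2 (coprime_of_notMem hl2 hv)
    rwa [jacobiChar_apply, if_pos (coprime_of_notMem hl2 hv), jacobiIdeal_prime v.prime] at h1
  · haveI := v.isMaximal
    have h1 := congrArg (fun z : 𝓞 K => φ (z : K))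
      (FA.DavenportHasse.fermatPoints_residue hl2 hv E)
    rw [card_fermatCurvePoint hl.out.ne_zero, e.sum_comp (fun x : pairs l =>
      f₀ x v.asIdeal ^ Module.finrank (𝓞 K ⧸ v.asIdeal) E)]
    simp only [hval _ v hv]
    rw [Finset.sum_coe_sort (pairs l) fun x : (_ : ℕ) × ℕ =>
      φ (jacobiPrime l x.1 x.2 v.asIdeal : K) ^ Module.finrank (𝓞 K ⧸ v.asIdeal) E, pairs,
      Finset.sum_sigma]
    have hcast : ∀ z : 𝓞 K, φ (z : K) = φ.comp (algebraMap (𝓞 K) K) z := fun _ => rfl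
    simp only [hcast, map_sub, map_add, map_pow, map_one, map_natCast, map_sum] at h1 ⊢
    exact h1
  · by_cases hd : v₀.asIdeal ∣ 𝔣 (e i)
    · exact Or.inl ((not_coprime_iff (h₀ (e i)) v₀).2 hd)
    · right
      obtain ⟨h1, h2, h3⟩ := not_dvd_of_pairs (e i).2
      have hw : IsPure (jacobiType φ l (e i).1.1 (e i).1.2) 1 := jacobiType_conj h1 h2 h3
      have hne : f₀ (e i) v₀.asIdeal ≠ 0 := fun e0 => hd ((not_coprime_iff (h₀ (e i)) v₀).1 e0)
      have hcop := ((h₀ (e i)).ne_zero_iff _ v₀.ne_bot).1 hne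
      have h4 := ((h₀ (e i)).torus hw).norm_eq_one v₀.ne_bot
        ((((h₀ (e i)).torus hw).ne_zero_iff _ v₀.ne_bot).2 hcop)
      rw [FA.IdeleClass.normTwist_apply, norm_mul, absNorm_lambdaPrime hl2,
        Complex.norm_natCast_cpow_of_pos hl.out.pos] at h4
      have hr : (-(((1 : ℤ) : ℂ) / 2)).re = -(1 / 2 : ℝ) := by simp
      rw [hr, Real.rpow_neg (Nat.cast_nonneg _), ← Real.sqrt_eq_rpow,
        mul_inv_eq_one₀ (Real.sqrt_pos.2 (Nat.cast_pos.2 hl.out.pos)).ne'] at h4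
      rw [h4, Real.sq_sqrt (Nat.cast_nonneg _)]
  · calc ∑ x, j x ≤ ∑ _x : pairs l, 2 := Finset.sum_le_sum fun x _ => hj x
      _ = 2 * ((l - 1) * (l - 2)) := by
        rw [Finset.sum_const, Finset.card_univ, hM, smul_eq_mul, mul_comm]
  · obtain ⟨L, hL0, hLp, hLe⟩ := hmain s hs
    have he : ∀ v : HeightOneSpectrum (𝓞 K),
        (∏ i, (1 - f₀ (e i) v.asIdeal * ((absNorm v.asIdeal : ℕ) : ℂ) ^ (-s)))⁻¹ = P s v :=
      fun v => congrArg Inv.inv (Fintype.prod_equiv e _ _ fun i => rfl)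
    have hP0 : P s v₀ ≠ 0 := by
      refine inv_ne_zero (Finset.prod_ne_zero_iff.2 fun x _ => ?_)
      obtain ⟨h1, h2, h3⟩ := not_dvd_of_pairs x.2
      obtain ⟨_, -, -, hne⟩ := FA.AlgHeckeFE.hasProd_algChar (h₀ x) (w := 1)
        (jacobiType_conj h1 h2 h3) (s := s) (by push_cast; linarith)
      exact hne v₀
    have hc : (∏ i, (1 - f₀ (e i) v₀.asIdeal * (l : ℂ) ^ (-s))) = (P s v₀)⁻¹ := by
      rw [← he, inv_inv, absNorm_lambdaPrime hl2]
    refine ⟨(P s v₀)⁻¹ * L, mul_ne_zero (inv_ne_zero hP0) hL0, ?_,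
      hc ▸ inv_ne_zero hP0, ?_⟩
    · have h1 := (hasProd_ite_eq v₀ (P s v₀)⁻¹).mul hLp
      have h2 : Function.mulSupport (fun v => (if v = v₀ then (P s v₀)⁻¹ else 1) * P s v) ⊆
          {v : HeightOneSpectrum (𝓞 K) | (l : 𝓞 K) ∉ v.asIdeal} := fun v hv hmem => hv (by
        have := (eq_lambdaPrime_iff v).2 hmem
        subst this
        beta_reduce
        rw [if_pos rfl, inv_mul_cancel₀ hP0])
      refine ((hasProd_subtype_iff_of_mulSupport_subset h2).2 h1).congr_fun fun v => ?_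
      show _ = (if v.1 = v₀ then _ else _) * P s v.1
      rw [if_neg fun e0 => v.2 ((eq_lambdaPrime_iff v.1).1 e0), one_mul, he]
    · rw [hc, inv_inv, mul_inv_cancel_left₀ hP0]
      exact hLe

end FA.FermatHW

end
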